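import Fermat.Agent.SecondMoment.Approx
import Fermat.Agent.MeanValue.Dirichlet

/-!
# The second moment of `ζ` on the critical line

`∫_0^T |ζ (1/2 + it)|² dt = T log T + O (T √(log T))`.
-/

set_option autoImplicit false

noncomputable section

namespace FA.SecondMoment

open Finset MeasureTheory
open scoped Real

/-- The partial sum on the critical line. -/
def lineSum (M : ℕ) (t : ℝ) : ℂ := ∑ n ∈ Icc 1 M, 1 / (n : ℂ) ^ ((1 / 2 : ℂ) + t * Complex.I)

theorem continuous_zeta_line : Continuous fun t : ℝ => riemannZeta (1 / 2 + t * Complex.I) := by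
  refine continuous_iff_continuousAt.2 fun t => ?_
  have h1 : (1 / 2 + t * Complex.I : ℂ) ≠ 1 := fun h => by
    have := congrArg Complex.re h
    norm_num at this
  have hg : ContinuousAt (fun u : ℝ => (1 / 2 : ℂ) + u * Complex.I) t :=
    (continuous_const.add (Complex.continuous_ofReal.mul continuous_const)).continuousAt
  exact ContinuousAt.comp (g := riemannZeta) (differentiableAt_riemannZeta h1).continuousAt hg

theorem continuous_lineSum (M : ℕ) : Continuous (lineSum M) := by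
  unfold lineSum
  refine continuous_finsetSum _ fun n hn => ?_
  have hn0 : (n : ℂ) ≠ 0 := Nat.cast_ne_zero.2 (Nat.one_le_iff_ne_zero.1 (mem_Icc.1 hn).1)
  exact continuous_const.div
    ((continuous_const.add (Complex.continuous_ofReal.mul continuous_const)).const_cpow
      (Or.inl hn0)) fun t => by simp [Complex.cpow_eq_zero_iff, hn0]

theorem continuous_truncErr (M : ℕ) : Continuous (truncErr M) :=
  continuous_zeta_line.sub (continuous_lineSum M)

/-- The mean square of the partial sum. -/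
theorem abs_integral_lineSum (M : ℕ) (u v : ℝ) :
    |(∫ t in u..v, ‖lineSum M t‖ ^ 2) - (v - u) * (harmonic M : ℝ)| ≤ 6 * π * M := by
  have h := FA.MeanValue.mean_value_zeta_sum M u v
  have e : (harmonic M : ℝ) = ∑ n ∈ Icc 1 M, 1 / (n : ℝ) := by
    rw [harmonic_eq_sum_Icc]
    push_cast
    exact sum_congr rfl fun n _ => (one_div _).symm
  have e2 : ∀ t : ℝ, lineSum M t =
      ∑ n ∈ Icc 1 M, (n : ℂ) ^ (-(1 / 2 + Complex.I * (t : ℂ))) := fun t =>
    sum_congr rfl fun n _ => by rw [one_div, ← Complex.cpow_neg, mul_comm (t : ℂ)]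
  simp only [e2]
  rwa [e]

/-- The mean square of the error. -/
theorem integral_truncErr_le {T : ℝ} (hT : 2 ≤ T) :
    ∫ t in (2 : ℝ)..T, ‖truncErr ⌊T⌋₊ t‖ ^ 2 ≤ 80000 * T := by
  obtain ⟨M, hM⟩ : ∃ M, M = ⌊T⌋₊ := ⟨_, rfl⟩
  have hM1 : T ≤ (M : ℝ) + 1 := hM ▸ (Nat.lt_floor_add_one T).le
  have hM2 : (M : ℝ) + 1 ≤ 2 * T := by
    have := Nat.floor_le (show (0 : ℝ) ≤ T by linarith)
    rw [← hM] at this
    linarith
  obtain ⟨g, hg⟩ : ∃ g : ℝ → ℝ, g = fun t => 40000 + 80000 * T * (1 / t ^ 2) := ⟨_, rfl⟩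
  have hne : ∀ x ∈ Set.uIcc (2 : ℝ) T, x ≠ 0 := fun x hx => by
    rw [Set.uIcc_of_le hT] at hx
    linarith [hx.1]
  have hci : ContinuousOn (fun t : ℝ => 1 / t ^ 2) (Set.uIcc (2 : ℝ) T) :=
    continuousOn_const.div (continuousOn_id.pow 2) fun x hx => pow_ne_zero 2 (hne x hx)
  have hgi : IntervalIntegrable g volume 2 T := by
    rw [hg]
    exact (continuousOn_const.add (continuousOn_const.mul hci)).intervalIntegrable
  rw [← hM]
  refine (intervalIntegral.integral_mono_on hT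
    (((continuous_truncErr M).norm.pow 2).intervalIntegrable _ _) hgi fun t ht => ?_).trans ?_
  · have ht0 : 0 < t := by linarith [ht.1]
    have h := norm_truncErr_le ht.1 (ht.2.trans hM1)
    refine (pow_le_pow_left₀ (norm_nonneg _) h 2).trans ?_
    have hq : (√((M : ℝ) + 1) / t) ^ 2 ≤ 2 * T * (1 / t ^ 2) := by
      rw [div_pow, Real.sq_sqrt (by positivity), mul_one_div]
      exact div_le_div_of_nonneg_right hM2 (sq_nonneg t)
    rw [hg]
    simp only
    nlinarith [sq_nonneg (1 - √((M : ℝ) + 1) / t)]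
  · simp only [hg]
    rw [intervalIntegral.integral_add intervalIntegrable_const
      (hci.intervalIntegrable.const_mul _), intervalIntegral.integral_const,
      intervalIntegral.integral_const_mul]
    have hd : ∀ x ∈ Set.uIcc (2 : ℝ) T, HasDerivAt (fun y : ℝ => -y⁻¹) (1 / x ^ 2) x :=
      fun x hx => by simpa [one_div] using (hasDerivAt_inv (hne x hx)).fun_neg
    rw [intervalIntegral.integral_eq_sub_of_hasDerivAt hd hci.intervalIntegrable, smul_eq_mul]
    nlinarith [inv_pos.2 (show (0 : ℝ) < T by linarith)]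

/-- `harmonic ⌊T⌋` is `log T` up to `1`. -/
theorem abs_harmonic_sub_log {T : ℝ} (hT : 1 ≤ T) :
    |(harmonic ⌊T⌋₊ : ℝ) - Real.log T| ≤ 1 := by
  have hM1 : 1 ≤ ⌊T⌋₊ := Nat.le_floor (by exact_mod_cast hT)
  have hfl := Nat.floor_le (show (0 : ℝ) ≤ T by linarith)
  have h1 := log_add_one_le_harmonic ⌊T⌋₊
  have h2 := harmonic_le_one_add_log ⌊T⌋₊
  have h3 : Real.log T ≤ Real.log ((⌊T⌋₊ + 1 : ℕ) : ℝ) :=
    Real.log_le_log (by linarith) (by push_cast; exact (Nat.lt_floor_add_one T).le)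
  have h4 : Real.log (⌊T⌋₊ : ℝ) ≤ Real.log T :=
    Real.log_le_log (Nat.cast_pos.2 hM1) hfl
  rw [abs_le]
  constructor <;> linarith

/-- `|‖z‖² - ‖w‖²|` by the difference. -/
theorem abs_sq_norm_sub_le (z w : ℂ) {ε : ℝ} (hε : 0 < ε) :
    |‖z‖ ^ 2 - ‖w‖ ^ 2| ≤ ε * ‖w‖ ^ 2 + (1 + 1 / ε) * ‖z - w‖ ^ 2 := by
  have h1 := norm_le_norm_add_norm_sub' z w
  have h2 := norm_le_norm_add_norm_sub' w z
  rw [norm_sub_rev w z] at h2
  have hz := norm_nonneg z
  have hw := norm_nonneg w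
  have hd := norm_nonneg (z - w)
  have key : 2 * ‖w‖ * ‖z - w‖ ≤ ε * ‖w‖ ^ 2 + 1 / ε * ‖z - w‖ ^ 2 := by
    have h : 0 ≤ (ε * ‖w‖ - ‖z - w‖) ^ 2 / ε := div_nonneg (sq_nonneg _) hε.le
    have e : (ε * ‖w‖ - ‖z - w‖) ^ 2 / ε =
        ε * ‖w‖ ^ 2 + 1 / ε * ‖z - w‖ ^ 2 - 2 * ‖w‖ * ‖z - w‖ := by
      field_simp
      ring
    linarith
  rw [abs_le]
  constructor
  · rcases le_total ‖w‖ ‖z - w‖ with h | h
    · nlinarith
    · nlinarith [pow_le_pow_left₀ (sub_nonneg.2 h) (show ‖w‖ - ‖z - w‖ ≤ ‖z‖ by linarith) 2]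
  · nlinarith [pow_le_pow_left₀ hz h1 2]

/-- **The second moment, from `2` on.** -/
theorem abs_moment_sub_le {T : ℝ} (hT : 3 ≤ T) :
    |(∫ t in (2 : ℝ)..T, ‖riemannZeta (1 / 2 + t * Complex.I)‖ ^ 2) - T * Real.log T| ≤
      170000 * (T * √(Real.log T)) := by
  have hT0 : 0 < T := by linarith
  obtain ⟨M, hM⟩ : ∃ M, M = ⌊T⌋₊ := ⟨_, rfl⟩
  obtain ⟨L, hL⟩ : ∃ L, L = Real.log T := ⟨_, rfl⟩
  have hL1 : 1 ≤ L := by
    rw [hL, Real.le_log_iff_exp_le hT0]
    exact Real.exp_one_lt_three.le.trans hT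
  obtain ⟨q, hq⟩ : ∃ q, q = √L := ⟨_, rfl⟩
  have hqq : q * q = L := hq ▸ Real.mul_self_sqrt (by linarith)
  have hq1 : 1 ≤ q := hq ▸ Real.one_le_sqrt.2 hL1
  have hMT : (M : ℝ) ≤ T := hM ▸ Nat.floor_le hT0.le
  have hS := abs_le.1 (abs_integral_lineSum M 2 T)
  have hH := abs_le.1 (abs_harmonic_sub_log (show 1 ≤ T by linarith))
  rw [← hM, ← hL] at hH
  have hE := integral_truncErr_le (show 2 ≤ T by linarith)
  rw [← hM] at hE
  have hcS : IntervalIntegrable (fun t => ‖lineSum M t‖ ^ 2) volume 2 T :=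
    ((continuous_lineSum M).norm.pow 2).intervalIntegrable _ _
  have hcE : IntervalIntegrable (fun t => ‖truncErr M t‖ ^ 2) volume 2 T :=
    ((continuous_truncErr M).norm.pow 2).intervalIntegrable _ _
  have hcZ : IntervalIntegrable (fun t : ℝ => ‖riemannZeta (1 / 2 + t * Complex.I)‖ ^ 2)
      volume 2 T := (continuous_zeta_line.norm.pow 2).intervalIntegrable _ _
  have hdiff : |(∫ t in (2 : ℝ)..T, ‖riemannZeta (1 / 2 + t * Complex.I)‖ ^ 2) -
      ∫ t in (2 : ℝ)..T, ‖lineSum M t‖ ^ 2| ≤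
      1 / q * (∫ t in (2 : ℝ)..T, ‖lineSum M t‖ ^ 2) +
        (1 + q) * ∫ t in (2 : ℝ)..T, ‖truncErr M t‖ ^ 2 := by
    rw [← intervalIntegral.integral_sub hcZ hcS, ← intervalIntegral.integral_const_mul,
      ← intervalIntegral.integral_const_mul,
      ← intervalIntegral.integral_add (hcS.const_mul _) (hcE.const_mul _)]
    refine (intervalIntegral.abs_integral_le_integral_abs (by linarith)).trans
      (intervalIntegral.integral_mono_on (by linarith) (hcZ.sub hcS).abs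
        ((hcS.const_mul _).add (hcE.const_mul _)) fun t _ => ?_)
    have h := abs_sq_norm_sub_le (riemannZeta (1 / 2 + t * Complex.I)) (lineSum M t)
      (one_div_pos.2 (show 0 < q by linarith))
    rwa [one_div_one_div] at h
  have hSup : ∫ t in (2 : ℝ)..T, ‖lineSum M t‖ ^ 2 ≤ 22 * (T * L) := by
    have h5 : (T - 2) * (harmonic M : ℝ) ≤ T * (L + 1) := by
      nlinarith [mul_le_mul_of_nonneg_left (show (harmonic M : ℝ) ≤ L + 1 by linarith)
        (show 0 ≤ T - 2 by linarith)]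
    have h6 : 6 * π * M ≤ 20 * T := by
      nlinarith [Real.pi_pos, Real.pi_lt_d2, (Nat.cast_nonneg M : (0 : ℝ) ≤ M)]
    nlinarith [mul_le_mul_of_nonneg_left hL1 hT0.le]
  have h1 : 1 / q * (∫ t in (2 : ℝ)..T, ‖lineSum M t‖ ^ 2) ≤ 22 * (T * q) := by
    refine (mul_le_mul_of_nonneg_left hSup (by positivity)).trans (le_of_eq ?_)
    rw [← hqq]
    field_simp
  have h2 : (1 + q) * ∫ t in (2 : ℝ)..T, ‖truncErr M t‖ ^ 2 ≤ 160000 * (T * q) := by
    refine (mul_le_mul_of_nonneg_left hE (by linarith)).trans ?_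
    nlinarith [mul_le_mul_of_nonneg_left hq1 hT0.le]
  have h3 : |(∫ t in (2 : ℝ)..T, ‖lineSum M t‖ ^ 2) - T * L| ≤ 30 * (T * q) := by
    have h6 : 6 * π * M ≤ 20 * T := by
      nlinarith [Real.pi_pos, Real.pi_lt_d2, (Nat.cast_nonneg M : (0 : ℝ) ≤ M)]
    have hTq := mul_le_mul_of_nonneg_left hq1 hT0.le
    have hLq : L ≤ T * q := by
      have h7 : L ≤ T - 1 := hL ▸ Real.log_le_sub_one_of_pos hT0
      linarith
    rw [abs_le]
    constructor <;>
      nlinarith [mul_le_mul_of_nonneg_left hH.1 (show 0 ≤ T - 2 by linarith),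
        mul_le_mul_of_nonneg_left hH.2 (show 0 ≤ T - 2 by linarith)]
  rw [← hL, ← hq]
  have := abs_le.1 (hdiff.trans (add_le_add h1 h2))
  have := abs_le.1 h3
  have h0 : 0 ≤ T * q := by positivity
  rw [abs_le]
  constructor <;> linarith

/-- **The second moment of `ζ` on the critical line** (Hardy–Littlewood). -/
theorem second_moment : ∃ C : ℝ, ∀ T : ℝ, 3 ≤ T →
    |(∫ t in (0 : ℝ)..T, ‖riemannZeta (1 / 2 + t * Complex.I)‖ ^ 2) - T * Real.log T| ≤
      C * (T * √(Real.log T)) := by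
  refine ⟨170000 + |∫ t in (0 : ℝ)..2, ‖riemannZeta (1 / 2 + t * Complex.I)‖ ^ 2|,
    fun T hT => ?_⟩
  have hc : ∀ a b : ℝ, IntervalIntegrable
      (fun t : ℝ => ‖riemannZeta (1 / 2 + t * Complex.I)‖ ^ 2) volume a b := fun a b =>
    (continuous_zeta_line.norm.pow 2).intervalIntegrable _ _
  rw [← intervalIntegral.integral_add_adjacent_intervals (hc 0 2) (hc 2 T), add_mul, add_sub_assoc]
  refine (abs_add_le _ _).trans (le_trans (add_le_add ?_ (abs_moment_sub_le hT))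
    (le_of_eq (add_comm _ _)))
  refine le_mul_of_one_le_right (abs_nonneg _) ?_
  have h1 : 1 ≤ √(Real.log T) := Real.one_le_sqrt.2 ((Real.le_log_iff_exp_le (by linarith)).2
    (Real.exp_one_lt_three.le.trans hT))
  nlinarith

end FA.SecondMoment
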