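import Fermat.Agent.Subconvexity.ZetaLine

/-!
# `ζ (1/2 + it) = ∑_{n ≤ M} n ^ (-1/2 - it) + O (1 + √(M + 1) / t)` for `2 ≤ t ≤ M + 1`

The tail up to `max M ⌈t²⌉` is cut in dyadic blocks, each estimated by Kuzmin–Landau.
-/

set_option autoImplicit false

noncomputable section

namespace FA.SecondMoment

open Finset
open FA.Subconvexity (expI phase)
open scoped Real

/-- One dyadic block beyond `t`. -/
theorem norm_tail_block_le {t : ℝ} (ht : 1 ≤ t) {a b : ℕ} (hta : t ≤ a) (hb : b ≤ 2 * a) :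
    ‖∑ n ∈ Ico a b, expI (phase t n)‖ ≤ 1 + 4 * π * a / t := by
  have ht0 : 0 < t := by linarith
  have ha0 : (0 : ℝ) < a := by linarith
  have hlam : 0 < t / (2 * a) := by positivity
  refine (FA.Subconvexity.norm_kuzmin_le (φ := phase t) (k := -1) hlam (fun n hn => ?_)
    (Or.inl fun n hn _ => ?_)).trans (le_of_eq ?_)
  · rw [mem_Ico] at hn
    have han : (a : ℝ) ≤ n := Nat.cast_le.2 hn.1
    have hn1 : 1 ≤ n := Nat.cast_le.1 (show ((1 : ℕ) : ℝ) ≤ n by push_cast; linarith)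
    have hn2 : (n : ℝ) + 1 ≤ 2 * a := by
      exact_mod_cast (show n + 1 ≤ 2 * a by omega)
    obtain ⟨h1, h2⟩ := FA.Subconvexity.first_diff_log hn1
    have e : phase t (n + 1) - phase t n = -(t * (Real.log ((n : ℝ) + 1) - Real.log n)) := by
      rw [phase, phase, Nat.cast_add, Nat.cast_one]
      ring
    have h3 : t / (2 * a) ≤ t * (Real.log ((n : ℝ) + 1) - Real.log n) := by
      rw [div_eq_mul_one_div]
      exact mul_le_mul_of_nonneg_left
        ((one_div_le_one_div_of_le (by positivity) hn2).trans h1) ht0.le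
    have h4 : t * (Real.log ((n : ℝ) + 1) - Real.log n) ≤ 1 := by
      refine (mul_le_mul_of_nonneg_left h2 ht0.le).trans ?_
      rw [mul_one_div, div_le_one (by linarith)]
      linarith
    have h5 : t / (2 * a) ≤ 1 / 2 := by
      rw [div_le_iff₀ (by positivity)]
      linarith
    rw [e]
    push_cast
    constructor <;> linarith [Real.pi_gt_three]
  · rw [mem_Ico] at hn
    have han : (a : ℝ) ≤ n := Nat.cast_le.2 hn.1
    have hn1 : 1 ≤ n := Nat.cast_le.1 (show ((1 : ℕ) : ℝ) ≤ n by push_cast; linarith)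
    have h := (FA.Subconvexity.second_diff_log hn1).1
    have h' := mul_nonneg ht0.le (le_trans (by positivity) h)
    rw [phase, phase, phase]
    push_cast
    linarith
  · field_simp
    ring

/-- The block with its weights. -/
theorem norm_zeta_block_le {t : ℝ} (ht : 1 ≤ t) {a b : ℕ} (hta : t ≤ a) (hab : a ≤ b)
    (hb : b ≤ 2 * a) :
    ‖∑ n ∈ Ico a b, 1 / (n : ℂ) ^ ((1 / 2 : ℂ) + t * Complex.I)‖ ≤
      1 / √(a : ℝ) + 4 * π * √(a : ℝ) / t := by
  have ha0 : (0 : ℝ) < a := by linarith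
  have ha1 : 1 ≤ a := Nat.one_le_iff_ne_zero.2 (Nat.cast_ne_zero.1 ha0.ne')
  rw [sum_congr rfl fun n hn => FA.Subconvexity.term_eq (t := t)
    (ha1.trans (mem_Ico.1 hn).1)]
  refine (FA.Subconvexity.norm_sum_weight_le (w := fun n => 1 / √(n : ℝ))
    (B := 1 + 4 * π * a / t) hab (fun m _ _ => by positivity) (fun m hm _ => ?_)
    fun m hm hm' => norm_tail_block_le ht hta (hm'.trans hb)).trans (le_of_eq ?_)
  · exact one_div_le_one_div_of_le (Real.sqrt_pos.2 (Nat.cast_pos.2 (ha1.trans hm)))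
      (Real.sqrt_le_sqrt (Nat.cast_le.2 m.le_succ))
  · obtain ⟨q, hq⟩ : ∃ q, q = √(a : ℝ) := ⟨_, rfl⟩
    have hq0 : 0 < q := hq ▸ Real.sqrt_pos.2 ha0
    have hqa : (a : ℝ) = q * q := by rw [hq, Real.mul_self_sqrt ha0.le]
    simp only [← hq]
    rw [hqa]
    field_simp

/-- **The sum over `[a, b)` for `t ≤ a`.** -/
theorem norm_zeta_tail_le {t : ℝ} (ht : 1 ≤ t) : ∀ (d a b : ℕ), b - a = d → t ≤ a → a ≤ b →
    ‖∑ n ∈ Ico a b, 1 / (n : ℂ) ^ ((1 / 2 : ℂ) + t * Complex.I)‖ ≤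
      4 / √(a : ℝ) + (44 * √(b : ℝ) - 31 * √(a : ℝ)) / t := by
  intro d
  induction d using Nat.strong_induction_on with
  | h d ih =>
    intro a b hd hta hab
    have ht0 : 0 < t := by linarith
    have ha0 : (0 : ℝ) < a := by linarith
    have hsa : 0 < √(a : ℝ) := Real.sqrt_pos.2 ha0
    have hsab : √(a : ℝ) ≤ √(b : ℝ) := Real.sqrt_le_sqrt (Nat.cast_le.2 hab)
    have hpi : π ≤ 3.15 := Real.pi_lt_d2.le
    rcases le_or_gt b (2 * a) with hb | hb
    · refine (norm_zeta_block_le ht hta hab hb).trans (add_le_add ?_ ?_)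
      · exact div_le_div_of_nonneg_right (by norm_num) hsa.le
      · refine div_le_div_of_nonneg_right ?_ ht0.le
        nlinarith
    · rw [← sum_Ico_consecutive _ (show a ≤ 2 * a by omega) hb.le]
      have ha1 : 0 < a := Nat.cast_pos.1 ha0
      have h2a : t ≤ ((2 * a : ℕ) : ℝ) := by push_cast; linarith
      refine (norm_add_le _ _).trans ((add_le_add
        (norm_zeta_block_le ht hta (show a ≤ 2 * a by omega) le_rfl)
        (ih (b - 2 * a) (by omega) (2 * a) b rfl h2a hb.le)).trans ?_)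
      push_cast
      rw [Real.sqrt_mul (by norm_num : (0 : ℝ) ≤ 2)]
      have hr : (7 : ℝ) / 5 ≤ √2 ∧ 1 < √2 := by
        constructor
        · exact Real.le_sqrt_of_sq_le (by norm_num)
        · exact Real.one_lt_sqrt_two
      have hr2 : (141 : ℝ) / 100 ≤ √2 := Real.le_sqrt_of_sq_le (by norm_num)
      have e1 : 1 / √(a : ℝ) + 4 / (√2 * √(a : ℝ)) ≤ 4 / √(a : ℝ) := by
        rw [show 4 / (√2 * √(a : ℝ)) = (4 / √2) / √(a : ℝ) by rw [div_div], ← add_div]
        refine div_le_div_of_nonneg_right ?_ hsa.le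
        have : 4 / √2 ≤ 3 := by rw [div_le_iff₀ (by linarith [hr.2])]; linarith
        linarith
      have e2 : 4 * π * √(a : ℝ) / t + (44 * √(b : ℝ) - 31 * (√2 * √(a : ℝ))) / t ≤
          (44 * √(b : ℝ) - 31 * √(a : ℝ)) / t := by
        rw [← add_div]
        refine div_le_div_of_nonneg_right ?_ ht0.le
        nlinarith [mul_nonneg (sub_nonneg.2 hr2) hsa.le]
      linarith

/-- The error of the truncation at `M`. -/
def truncErr (M : ℕ) (t : ℝ) : ℂ :=
  riemannZeta (1 / 2 + t * Complex.I) -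
    ∑ n ∈ Icc 1 M, 1 / (n : ℂ) ^ ((1 / 2 : ℂ) + t * Complex.I)

/-- **The approximation of `ζ (1/2 + it)` by its partial sum.** -/
theorem norm_truncErr_le {t : ℝ} (ht : 2 ≤ t) {M : ℕ} (hM : t ≤ (M : ℝ) + 1) :
    ‖truncErr M t‖ ≤ 140 * (1 + √((M : ℝ) + 1) / t) := by
  have ht0 : 0 < t := by linarith
  set s : ℂ := 1 / 2 + t * Complex.I with hs
  have hre : s.re = 1 / 2 := by simp [hs]
  have him : s.im = t := by simp [hs]
  have hs1 : s ≠ 1 := fun h => by
    have := congrArg Complex.im h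
    simp [him] at this
    linarith
  obtain ⟨X, hX⟩ : ∃ X, X = max M ⌈t ^ 2⌉₊ := ⟨_, rfl⟩
  have hMX : M ≤ X := hX ▸ le_max_left _ _
  have hXlo : t ^ 2 ≤ (X : ℝ) := (Nat.le_ceil _).trans (Nat.cast_le.2 (hX ▸ le_max_right _ _))
  have hXhi : (X : ℝ) + 1 ≤ ((M : ℝ) + 1) + 4 * t ^ 2 := by
    have := (Nat.ceil_lt_add_one (sq_nonneg t)).le
    rw [hX, Nat.cast_max]
    have hM0 : (0 : ℝ) ≤ M := Nat.cast_nonneg M
    rcases le_total (M : ℝ) (⌈t ^ 2⌉₊ : ℝ) with h | h
    · rw [max_eq_right h]; nlinarith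
    · rw [max_eq_left h]; nlinarith
  have hX1 : 1 ≤ X := by
    have : (1 : ℝ) ≤ X := le_trans (by nlinarith) hXlo
    exact_mod_cast this
  have hX0 : (0 : ℝ) < X := Nat.cast_pos.2 hX1
  have hsX : t ≤ √(X : ℝ) := Real.le_sqrt_of_sq_le hXlo
  obtain ⟨Q, hQ⟩ : ∃ Q, Q = √((M : ℝ) + 1) / t := ⟨_, rfl⟩
  have hQ0 : 0 ≤ Q := hQ ▸ by positivity
  have hsX2 : √((X : ℝ) + 1) / t ≤ Q + 2 := by
    rw [hQ, div_add' _ _ _ ht0.ne']
    refine div_le_div_of_nonneg_right ?_ ht0.le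
    rw [Real.sqrt_le_iff]
    refine ⟨by positivity, hXhi.trans ?_⟩
    nlinarith [Real.sq_sqrt (show (0 : ℝ) ≤ (M : ℝ) + 1 by positivity),
      Real.sqrt_nonneg ((M : ℝ) + 1)]
  have t1 : ‖∑ n ∈ Ico (M + 1) (X + 1), 1 / (n : ℂ) ^ s‖ ≤ 4 + 44 * (Q + 2) := by
    have h := norm_zeta_tail_le (show 1 ≤ t by linarith) _ (M + 1) (X + 1) rfl
      (by push_cast; exact hM) (by omega)
    rw [← hs] at h
    refine h.trans ?_
    push_cast
    have h1 : 1 ≤ √((M : ℝ) + 1) := Real.one_le_sqrt.2 (by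
      linarith [(Nat.cast_nonneg M : (0 : ℝ) ≤ M)])
    refine add_le_add (div_le_self (by norm_num) h1) ?_
    calc (44 * √((X : ℝ) + 1) - 31 * √((M : ℝ) + 1)) / t ≤ 44 * √((X : ℝ) + 1) / t :=
          div_le_div_of_nonneg_right (by linarith [Real.sqrt_nonneg ((M : ℝ) + 1)]) ht0.le
      _ = 44 * (√((X : ℝ) + 1) / t) := mul_div_assoc _ _ _
      _ ≤ _ := by linarith
  have t2 : ‖(X : ℂ) ^ (1 - s) / (s - 1)‖ ≤ Q + 2 := by
    rw [norm_div, Complex.norm_natCast_cpow_of_pos hX1, Complex.sub_re, Complex.one_re, hre,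
      show (1 : ℝ) - 1 / 2 = 1 / 2 by norm_num, ← Real.sqrt_eq_rpow]
    have h1 : t ≤ ‖s - 1‖ := by
      have := Complex.abs_im_le_norm (s - 1)
      rw [Complex.sub_im, him, Complex.one_im, sub_zero, abs_of_pos ht0] at this
      exact this
    refine le_trans ?_ hsX2
    exact (div_le_div_of_nonneg_left (Real.sqrt_nonneg _) ht0 h1).trans
      (div_le_div_of_nonneg_right (Real.sqrt_le_sqrt (by linarith)) ht0.le)
  have t3 : ‖s * ∫ u in Set.Ioi (X : ℝ),
      ((u - (⌊u⌋₊ : ℝ) : ℝ) : ℂ) * (u : ℂ) ^ (-(s + 1))‖ ≤ 4 := by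
    have hi : ‖∫ u in Set.Ioi (X : ℝ), ((u - (⌊u⌋₊ : ℝ) : ℝ) : ℂ) * (u : ℂ) ^ (-(s + 1))‖ ≤
        (X : ℝ) ^ (-s.re) / s.re := by
      refine (MeasureTheory.norm_integral_le_of_norm_le
        (integrableOn_Ioi_rpow_of_lt (a := -(s.re + 1)) (by rw [hre]; norm_num) hX0) ?_).trans
        (le_of_eq ?_)
      · filter_upwards [MeasureTheory.ae_restrict_mem measurableSet_Ioi] with u hu
        exact CycloGrowth.norm_fracIntegrand_le (lt_of_le_of_lt (Nat.one_le_cast.2 hX1) hu)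
      · rw [integral_Ioi_rpow_of_lt (by rw [hre]; norm_num) hX0,
          show -(s.re + 1) + 1 = -s.re by ring, neg_div_neg_eq]
    rw [norm_mul]
    have hn : ‖s‖ ≤ 2 * t := by
      have := Complex.norm_le_abs_re_add_abs_im s
      rw [hre, him, abs_of_pos ht0, abs_of_pos (by norm_num : (0 : ℝ) < 1 / 2)] at this
      linarith
    refine (mul_le_mul hn hi (norm_nonneg _) (by linarith)).trans ?_
    rw [hre, Real.rpow_neg hX0.le, ← Real.sqrt_eq_rpow]
    have : t * (√(X : ℝ))⁻¹ ≤ 1 := by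
      rw [mul_inv_le_iff₀ (Real.sqrt_pos.2 hX0)]; linarith
    linarith
  rw [truncErr, ← hs, FA.ZeroFree.riemannZeta_truncated (by rw [hre]; norm_num) hs1 hX1,
    show Icc 1 X = Icc 1 M ∪ Ico (M + 1) (X + 1) by
      ext i; simp only [mem_union, mem_Icc, mem_Ico]; omega,
    sum_union (disjoint_left.2 fun i ha hb => by
      simp only [mem_Icc, mem_Ico] at ha hb; omega), ← hQ]
  refine le_trans (le_of_eq (congrArg norm ?_))
    ((norm_sub_le _ _).trans ((add_le_add ((norm_add_le _ _).trans (add_le_add t1 t2)) t3).trans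
      ?_))
  · ring
  · linarith

end FA.SecondMoment
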